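import Mathlib
import Fermat.Agent.S41.Spec.PD
import Fermat.Agent.S21.H585.LowerBound
import Fermat.Agent.S41.H863.TransferNatural

/-!
# Row S41, block PD, leaf TR (helper232): restriction / corestriction in the Manin model

Exact shapes of `Fermat/Agent/S41/Spec/PD.lean` (sub-architect helper221):

* `maninRepCores : Spec.ManinRepCoresStatement` (TR-2): Mathlib's transfer is the push-forward of
  Manin symbols along `π : SL(2,ℤ) ⧸ Γ' → SL(2,ℤ) ⧸ Γ`;
* `maninFormAdjoint : Spec.ManinFormAdjointStatement` (TR-3);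
* `maninRepRes : Spec.ManinRepResStatement` (TR-1);
* `transferAlongEquiv : Spec.TransferAlongEquivStatement` (TR-4).

Reusable: `quotMap_smul` (equivariance of `π`), `pushQ` (push-forward of functions),
`pushQ_smul`, `pushQ_add`, `pushQ_sub`, `isCocycle_pushQ`.
-/

set_option autoImplicit false

namespace Fermat.Agent.S41.H232

open CongruenceSubgroup Matrix.SpecialLinearGroup ModularCurve.Period ModularGroup
open Fermat.Agent.S41.Spec Fermat.Agent.S21.H585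
open scoped MatrixGroups

universe u

section Push

variable {Γ' Γ : Subgroup SL(2, ℤ)} (hle : Γ' ≤ Γ) {A : Type*} [AddCommGroup A]

/-- `π : SL(2,ℤ) ⧸ Γ' → SL(2,ℤ) ⧸ Γ` is equivariant. -/
theorem quotMap_smul (g : SL(2, ℤ)) (x' : SL(2, ℤ) ⧸ Γ') :
    Subgroup.quotientMapOfLE hle (g • x') = g • Subgroup.quotientMapOfLE hle x' := by
  induction x' using QuotientGroup.induction_on with
  | H a => rfl

/-- Push-forward of functions along `π`. -/
noncomputable def pushQ (F : SL(2, ℤ) ⧸ Γ' → A) (x : SL(2, ℤ) ⧸ Γ) : A :=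
  ∑ᶠ (x' : SL(2, ℤ) ⧸ Γ') (_ : Subgroup.quotientMapOfLE hle x' = x), F x'

theorem pushQ_eq (F : SL(2, ℤ) ⧸ Γ' → A) (x : SL(2, ℤ) ⧸ Γ) :
    pushQ hle F x = ∑ᶠ x' ∈ {x' : SL(2, ℤ) ⧸ Γ' | Subgroup.quotientMapOfLE hle x' = x}, F x' :=
  rfl

theorem pushQ_smul (g : SL(2, ℤ)) (F : SL(2, ℤ) ⧸ Γ' → A) (x : SL(2, ℤ) ⧸ Γ) :
    pushQ hle (fun x' => F (g • x')) x = pushQ hle F (g • x) := by
  rw [pushQ_eq, pushQ_eq]
  refine finsum_mem_eq_of_bijOn (fun x' => g • x') ⟨?_, ?_, ?_⟩ (fun _ _ => rfl)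
  · intro x' hx'
    show Subgroup.quotientMapOfLE hle (g • x') = g • x
    rw [quotMap_smul, hx']
  · intro a _ b _ hab
    exact MulAction.injective g hab
  · intro y hy
    refine ⟨g⁻¹ • y, ?_, smul_inv_smul g y⟩
    show Subgroup.quotientMapOfLE hle (g⁻¹ • y) = x
    rw [quotMap_smul, hy, inv_smul_smul]

variable [Γ'.FiniteIndex]

theorem pushQ_add (F F' : SL(2, ℤ) ⧸ Γ' → A) (x : SL(2, ℤ) ⧸ Γ) :
    pushQ hle (fun x' => F x' + F' x') x = pushQ hle F x + pushQ hle F' x := by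
  rw [pushQ_eq, pushQ_eq, pushQ_eq]
  exact finsum_mem_add_distrib (Set.toFinite _)

theorem pushQ_sub (F F' : SL(2, ℤ) ⧸ Γ' → A) (x : SL(2, ℤ) ⧸ Γ) :
    pushQ hle (fun x' => F x' - F' x') x = pushQ hle F x - pushQ hle F' x := by
  rw [pushQ_eq, pushQ_eq, pushQ_eq]
  exact finsum_mem_sub_distrib F F' (Set.toFinite _)

omit [Γ'.FiniteIndex] in
theorem pushQ_zero (x : SL(2, ℤ) ⧸ Γ) :
    pushQ hle (fun _ => (0 : A)) x = 0 := by
  rw [pushQ_eq]
  exact finsum_mem_zero _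

/-- The push-forward of a cocycle is a cocycle. -/
theorem isCocycle_pushQ {f' : SL(2, ℤ) → SL(2, ℤ) ⧸ Γ' → A}
    (hf' : ∀ (g h : SL(2, ℤ)) (x : SL(2, ℤ) ⧸ Γ'), f' (g * h) x = f' h x + f' g (h • x))
    (g h : SL(2, ℤ)) (x : SL(2, ℤ) ⧸ Γ) :
    pushQ hle (f' (g * h)) x = pushQ hle (f' h) x + pushQ hle (f' g) (h • x) := by
  have h1 : f' (g * h) = fun x' => f' h x' + f' g (h • x') := funext fun x' => hf' g h x'
  rw [h1, pushQ_add, pushQ_smul hle h (f' g)]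

end Push

section Cores

variable {Γ' Γ : Subgroup SL(2, ℤ)} (hle : Γ' ≤ Γ) {A : Type*} [AddCommGroup A]

/-- The fibre of `π` over the base point, i.e. `Γ ⧸ Γ'`. -/
abbrev Fib : Type := {x' : SL(2, ℤ) ⧸ Γ' // Subgroup.quotientMapOfLE hle x' = basePt Γ}

theorem out_mem_of_fib (y : Fib hle) : (Quotient.out y.1 : SL(2, ℤ)) ∈ Γ := by
  have h1 : Subgroup.quotientMapOfLE hle ((Quotient.out y.1 : SL(2, ℤ)) : SL(2, ℤ) ⧸ Γ') =
      basePt Γ := by
    rw [QuotientGroup.out_eq']; exact y.2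
  rw [Subgroup.quotientMapOfLE_apply_mk] at h1
  have h2 : (((1 : SL(2, ℤ)) : SL(2, ℤ) ⧸ Γ)) = ((Quotient.out y.1 : SL(2, ℤ)) : SL(2, ℤ) ⧸ Γ) :=
    h1.symm
  rw [QuotientGroup.eq, inv_one, one_mul] at h2
  exact h2

theorem smul_mem_fib (γ : Γ) (y : Fib hle) :
    Subgroup.quotientMapOfLE hle ((γ : SL(2, ℤ)) • y.1) = basePt Γ := by
  rw [quotMap_smul, y.2, smul_basePt_of_mem Γ γ.2]

/-- `γ ∈ Γ` permutes the fibre over the base point. -/
def fibPerm (γ : Γ) : Equiv.Perm (Fib hle) where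
  toFun y := ⟨(γ : SL(2, ℤ)) • y.1, smul_mem_fib hle γ y⟩
  invFun y := ⟨((γ⁻¹ : Γ) : SL(2, ℤ)) • y.1, smul_mem_fib hle γ⁻¹ y⟩
  left_inv y := by
    apply Subtype.ext
    show ((γ⁻¹ : Γ) : SL(2, ℤ)) • (γ : SL(2, ℤ)) • y.1 = y.1
    rw [Subgroup.coe_inv, inv_smul_smul]
  right_inv y := by
    apply Subtype.ext
    show (γ : SL(2, ℤ)) • ((γ⁻¹ : Γ) : SL(2, ℤ)) • y.1 = y.1
    rw [Subgroup.coe_inv, smul_inv_smul]

variable [Γ'.FiniteIndex]

omit [Γ'.FiniteIndex] in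
theorem pushQ_basePt_eq_sum [Fintype (Fib hle)] (F : SL(2, ℤ) ⧸ Γ' → A) :
    pushQ hle F (basePt Γ) = ∑ y : Fib hle, F y.1 := by
  rw [pushQ_eq, ← finsum_set_coe_eq_finsum_mem, ← finsum_eq_sum_of_fintype]
  rfl

/-- **Transfer = push-forward**, cocycle form: for a cocycle `f'` on `SL(2,ℤ) ⧸ Γ'`, the transfer of
the class `γ' ↦ f' γ' x₀'` is `γ ↦ (π_* f') γ x₀`. -/
theorem transferAlong_eq_pushQ {f' : SL(2, ℤ) → SL(2, ℤ) ⧸ Γ' → A} (hf' : IsCocycle f')
    (ψ : Additive Γ' →+ A)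
    (hψ : ∀ γ' : Γ', ψ (Additive.ofMul γ') = f' (γ' : SL(2, ℤ)) (basePt Γ')) (γ : Γ) :
    transferAlong (Subgroup.inclusion hle) ψ (Additive.ofMul γ) =
      pushQ hle (f' (γ : SL(2, ℤ))) (basePt Γ) := by
  classical
  let _ : Fintype (Fib hle) := Fintype.ofFinite _
  have hψ' : ψ = homOfCocycle Γ' f' hf' := by
    refine AddMonoidHom.ext fun a => ?_
    obtain ⟨γ', rfl⟩ := Additive.ofMul.surjective a
    rw [hψ, homOfCocycle_apply]
  -- the data of the transfer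
  let s : Fib hle → Γ := fun y => ⟨(Quotient.out y.1 : SL(2, ℤ))⁻¹, inv_mem (out_mem_of_fib hle y)⟩
  let σ : Fib hle → Fib hle := (fibPerm hle γ).symm
  let k : Fib hle → Γ' := fun y =>
    ⟨(Quotient.out ((γ : SL(2, ℤ)) • (σ y).1) : SL(2, ℤ))⁻¹ * γ * Quotient.out (σ y).1,
      sec_mem Γ' γ (σ y).1⟩
  have hσ : ∀ y : Fib hle, (γ : SL(2, ℤ)) • (σ y).1 = y.1 := fun y =>
    congrArg Subtype.val ((fibPerm hle γ).apply_symm_apply y)
  have hinj : ∀ x y : Fib hle, s x * (s y)⁻¹ ∈ (Subgroup.inclusion hle).range → x = y := by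
    rintro x y ⟨δ, hδ⟩
    apply Subtype.ext
    have h1 : ((Quotient.out x.1 : SL(2, ℤ)) : SL(2, ℤ) ⧸ Γ') = (Quotient.out y.1 : SL(2, ℤ)) := by
      rw [QuotientGroup.eq]
      have h2 := congrArg (Subtype.val : Γ → SL(2, ℤ)) hδ
      have h3 : (Quotient.out x.1 : SL(2, ℤ))⁻¹ * Quotient.out y.1 = (δ : SL(2, ℤ)) := by
        rw [← Subgroup.coe_inclusion hle δ, h2]
        simp [s]
      rw [h3]
      exact δ.2
    rwa [QuotientGroup.out_eq', QuotientGroup.out_eq'] at h1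
  have hsurj : ∀ g : Γ, ∃ x : Fib hle, g * (s x)⁻¹ ∈ (Subgroup.inclusion hle).range := by
    intro g
    have hx : Subgroup.quotientMapOfLE hle (((g⁻¹ : Γ) : SL(2, ℤ)) : SL(2, ℤ) ⧸ Γ') = basePt Γ := by
      rw [Subgroup.quotientMapOfLE_apply_mk, ← smul_basePt_eq, smul_basePt_of_mem Γ (g⁻¹).2]
    refine ⟨⟨_, hx⟩, ?_⟩
    have h1 : (((g⁻¹ : Γ) : SL(2, ℤ)) : SL(2, ℤ) ⧸ Γ') =
        ((Quotient.out ((((g⁻¹ : Γ) : SL(2, ℤ)) : SL(2, ℤ) ⧸ Γ')) : SL(2, ℤ)) : SL(2, ℤ) ⧸ Γ') :=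
      (QuotientGroup.out_eq' _).symm
    rw [QuotientGroup.eq] at h1
    refine ⟨⟨_, h1⟩, ?_⟩
    apply Subtype.ext
    simp [s]
  have hk : ∀ y : Fib hle, s y * γ = Subgroup.inclusion hle (k y) * s (σ y) := by
    intro y
    apply Subtype.ext
    show (Quotient.out y.1 : SL(2, ℤ))⁻¹ * γ =
      ((Quotient.out ((γ : SL(2, ℤ)) • (σ y).1) : SL(2, ℤ))⁻¹ * γ * Quotient.out (σ y).1) *
        (Quotient.out (σ y).1 : SL(2, ℤ))⁻¹
    rw [hσ y, mul_assoc, mul_assoc, mul_inv_cancel, mul_one]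
  rw [Fermat.Agent.S41.H863.transferAlong_eq_sum_reps (Subgroup.inclusion hle)
    (Subgroup.inclusion_injective hle) s hinj hsurj ψ γ σ k hk, pushQ_basePt_eq_sum]
  -- telescoping
  have h1 : ∀ y : Fib hle, ψ (Additive.ofMul (k y)) =
      f' γ (σ y).1 - f' (Quotient.out y.1) (basePt Γ') + f' (Quotient.out (σ y).1) (basePt Γ') := by
    intro y
    have h2 := hf'.eq_indc_add (γ : SL(2, ℤ)) (σ y).1
    rw [← hψ'] at h2
    have h3 : indc Γ' ψ (γ : SL(2, ℤ)) (σ y).1 = ψ (Additive.ofMul (k y)) := rfl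
    rw [h3, hσ y] at h2
    rw [h2]
    abel
  rw [Finset.sum_congr rfl fun y _ => h1 y, Finset.sum_add_distrib, Finset.sum_sub_distrib]
  have h4 : ∑ y : Fib hle, f' (Quotient.out (σ y).1) (basePt Γ') =
      ∑ y : Fib hle, f' (Quotient.out y.1) (basePt Γ') :=
    Equiv.sum_comp (fibPerm hle γ).symm (fun y : Fib hle => f' (Quotient.out y.1) (basePt Γ'))
  have h5 : ∑ y : Fib hle, f' (γ : SL(2, ℤ)) (σ y).1 = ∑ y : Fib hle, f' (γ : SL(2, ℤ)) y.1 :=
    Equiv.sum_comp (fibPerm hle γ).symm (fun y : Fib hle => f' (γ : SL(2, ℤ)) y.1)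
  rw [h4, h5]
  abel

/-- **TR-2** (exact shape of `Spec.ManinRepCoresStatement`). -/
theorem maninRepCores : Spec.ManinRepCoresStatement.{u} := by
  intro Γ' Γ _ hle A _ ψ m' hrep
  obtain ⟨f', ⟨hcoc, hS, hU⟩, hψ⟩ := hrep
  have hf' : IsCocycle f' := hcoc
  refine ⟨fun g => pushQ hle (f' g), ⟨?_, ?_, ?_⟩, ?_⟩
  · intro g h x
    exact isCocycle_pushQ hle hcoc g h x
  · intro x
    have h1 : f' S = fun _ => (0 : A) := funext hS
    show pushQ hle (f' S) x = 0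
    rw [h1, pushQ_zero]
  · intro x
    have h1 : f' (S * T) = fun x' => m' ((S * T) • x') - m' x' := funext hU
    show pushQ hle (f' (S * T)) x = pushQ hle m' ((S * T) • x) - pushQ hle m' x
    rw [h1, pushQ_sub, pushQ_smul hle (S * T) m']
  · intro γ
    exact transferAlong_eq_pushQ hle hf' ψ hψ γ

end Cores

/-! ## TR-1: restriction -/

/-- **TR-1** (exact shape of `Spec.ManinRepResStatement`). -/
theorem maninRepRes : Spec.ManinRepResStatement.{u} := by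
  intro Γ' Γ hle A _ φ m hrep
  obtain ⟨f, ⟨hcoc, hS, hU⟩, hφ⟩ := hrep
  refine ⟨fun g x' => f g (Subgroup.quotientMapOfLE hle x'), ⟨?_, ?_, ?_⟩, ?_⟩
  · intro g h x'
    show f (g * h) (Subgroup.quotientMapOfLE hle x') =
      f h (Subgroup.quotientMapOfLE hle x') + f g (Subgroup.quotientMapOfLE hle (h • x'))
    rw [quotMap_smul, hcoc]
  · intro x'
    exact hS _
  · intro x'
    show f (S * T) (Subgroup.quotientMapOfLE hle x') =
      m (Subgroup.quotientMapOfLE hle ((S * T) • x')) - m (Subgroup.quotientMapOfLE hle x')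
    rw [quotMap_smul, hU]
  · intro γ
    show φ (Additive.ofMul (Subgroup.inclusion hle γ)) = _
    rw [hφ]
    rfl

/-! ## TR-3: push-forward of parabolic data, adjunction for the Manin form -/

section Adjoint

variable {Γ' Γ : Subgroup SL(2, ℤ)} (hle : Γ' ≤ Γ) {R : Type*} [CommRing R]

theorem pushQ_eq_sum_filter [Fintype (SL(2, ℤ) ⧸ Γ')] [DecidableEq (SL(2, ℤ) ⧸ Γ)]
    (F : SL(2, ℤ) ⧸ Γ' → R) (x : SL(2, ℤ) ⧸ Γ) :
    pushQ hle F x = ∑ x' with Subgroup.quotientMapOfLE hle x' = x, F x' := by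
  rw [pushQ_eq, finsum_mem_eq_finite_toFinset_sum _ (Set.toFinite _)]
  refine Finset.sum_congr ?_ fun _ _ => rfl
  ext x'
  simp

theorem isParData_pushQ [Γ'.FiniteIndex] {m' e' : SL(2, ℤ) ⧸ Γ' → R}
    (h : IsParData Γ' m' e') : IsParData Γ (pushQ hle m') (pushQ hle e') := by
  intro x
  rw [← pushQ_smul hle T e', ← pushQ_smul hle (S * T) m', ← pushQ_sub, ← pushQ_sub]
  congr 1
  exact funext h

theorem maninForm_pushQ [Γ'.FiniteIndex] (m : SL(2, ℤ) ⧸ Γ → R) (e' : SL(2, ℤ) ⧸ Γ' → R) :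
    maninForm Γ' (fun x' => m (Subgroup.quotientMapOfLE hle x')) e' =
      maninForm Γ m (pushQ hle e') := by
  classical
  have : Γ.FiniteIndex := Subgroup.finiteIndex_of_le hle
  let _ : Fintype (SL(2, ℤ) ⧸ Γ') := Subgroup.fintypeQuotientOfFiniteIndex
  let _ : Fintype (SL(2, ℤ) ⧸ Γ) := Subgroup.fintypeQuotientOfFiniteIndex
  rw [maninForm_eq_sum, maninForm_eq_sum]
  have h1 : ∀ x : SL(2, ℤ) ⧸ Γ, m x * (pushQ hle e' x - pushQ hle e' (S • x)) =
      ∑ x' with Subgroup.quotientMapOfLE hle x' = x,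
        m (Subgroup.quotientMapOfLE hle x') * (e' x' - e' (S • x')) := by
    intro x
    rw [← pushQ_smul hle S e', ← pushQ_sub, pushQ_eq_sum_filter, Finset.mul_sum]
    refine Finset.sum_congr rfl fun x' hx' => ?_
    rw [(Finset.mem_filter.mp hx').2]
  rw [Finset.sum_congr rfl fun x _ => h1 x]
  exact (Finset.sum_fiberwise Finset.univ (Subgroup.quotientMapOfLE hle)
    (fun x' => m (Subgroup.quotientMapOfLE hle x') * (e' x' - e' (S • x')))).symm

end Adjoint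

/-- **TR-3** (exact shape of `Spec.ManinFormAdjointStatement`). -/
theorem maninFormAdjoint : Spec.ManinFormAdjointStatement.{u} := by
  intro Γ' Γ _ hle R _ m m' e' hpar
  exact ⟨isParData_pushQ hle hpar, maninForm_pushQ hle m e'⟩

/-! ## TR-4: transfer along `f' ∘ e` -/

/-- **TR-4** (exact shape of `Spec.TransferAlongEquivStatement`). -/
theorem transferAlongEquiv : Spec.TransferAlongEquivStatement.{u} := by
  intro H H' G _ _ _ e f' A _ ψ
  classical
  have hrange : (f'.comp e.toMonoidHom).range = f'.range := by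
    ext g
    constructor
    · rintro ⟨h, rfl⟩
      exact ⟨e h, rfl⟩
    · rintro ⟨h', rfl⟩
      exact ⟨e.symm h', by simp⟩
  by_cases h : Function.Injective f' ∧ f'.range.FiniteIndex
  · obtain ⟨hf, hfin⟩ := h
    have hf2 : Function.Injective (f'.comp e.toMonoidHom) := hf.comp e.injective
    have := hfin
    let _ : Fintype (G ⧸ f'.range) := f'.range.fintypeQuotientOfFiniteIndex
    obtain ⟨s, hinj, hsurj⟩ := Fermat.Agent.S41.H863.exists_reps f'.range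
    refine AddMonoidHom.ext fun g => ?_
    obtain ⟨g, rfl⟩ := Additive.ofMul.surjective g
    choose σ hσ using fun x : G ⧸ f'.range => hsurj (s x * g)
    choose k hk using hσ
    have hk' : ∀ x, s x * g = f' (k x) * s (σ x) := by
      intro x
      rw [hk x, inv_mul_cancel_right]
    rw [Fermat.Agent.S41.H863.transferAlong_eq_sum_reps f' hf s hinj hsurj _ g σ k hk']
    have hinj2 : ∀ x y, s x * (s y)⁻¹ ∈ (f'.comp e.toMonoidHom).range → x = y := by
      intro x y hxy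
      rw [hrange] at hxy
      exact hinj x y hxy
    have hsurj2 : ∀ g, ∃ x, g * (s x)⁻¹ ∈ (f'.comp e.toMonoidHom).range := by
      intro g
      obtain ⟨x, hx⟩ := hsurj g
      exact ⟨x, hrange ▸ hx⟩
    have hk2 : ∀ x, s x * g = (f'.comp e.toMonoidHom) (e.symm (k x)) * s (σ x) := by
      intro x
      rw [hk' x]
      simp
    rw [Fermat.Agent.S41.H863.transferAlong_eq_sum_reps _ hf2 s hinj2 hsurj2 ψ g σ
      (fun x => e.symm (k x)) hk2]
    rfl
  · have h2 : ¬ (Function.Injective (f'.comp e.toMonoidHom) ∧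
        (f'.comp e.toMonoidHom).range.FiniteIndex) := by
      rintro ⟨h1, h3⟩
      apply h
      refine ⟨?_, hrange ▸ h3⟩
      intro a b hab
      have h4 := @h1 (e.symm a) (e.symm b) (by simpa using hab)
      exact e.symm.injective h4
    rw [Fermat.Agent.S41.H581.transferAlong_of_not _ h,
      Fermat.Agent.S41.H581.transferAlong_of_not _ h2]

end Fermat.Agent.S41.H232
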